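/-
S52 (the 3-5 switch): END-TO-END assembly (helper84).

Everything except the twist identities (brick K1, `Twist32`) is discharged here with landed
theorems:

* base point                      : `Klein.BGlue80.exists_basePoint_of_model`            (helper80)
* (C) irreducibility of `W'[3]`   : `KleinHIT49.exists_int_irreducible_three_klein` (Hilbert
                                    irreducibility route; helper48/62/49)
* (D) semistable integral model   : `Member74.semistable_member`                   (helper74)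
* (B) `5`-congruence              : `SpecShape20.exists_hom_member_of_polys`        (helper20/80/86)
* Eichler-Shimura on torsion      : `RelQbarFinal88.relQbar`                       (S58 programme)
* top wiring                      : `TopWiring84.s52_of_family`

The ONLY remaining input is `TwistSpec`: along the line `p₀ + t q₀`, `q₀ = (f_v, -f_u)(p₀)`, through
a base point of `W`, the forms `-H` and `-T` are given by polynomials in `t` with INTEGER
coefficients.
-/
import Mathlib
import Fermat.Agent.S52.TopWiring84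
import Fermat.Agent.S52.Model.Member74
import Fermat.Agent.S52.Spec.SpecShape20
import Fermat.Agent.S52.CGlue.KleinHIT49
import Fermat.Agent.ES.Q58.RelQbarFinal88

set_option autoImplicit false

open Polynomial

namespace Fermat.Agent.S52.Asm.Final84

open Fermat.Agent.S52.TopWiring84 (Tors FamilyStmt)
open Fermat.Agent.S52.Klein (kf kH kT kfu kfv)
open Fermat.Agent.S52.Klein.BGlue80 (Upoly Vpoly)
open Fermat.Agent.S52.Model

local notation "Qb" => AlgebraicClosure ℚ
local notation "GQ" => (AlgebraicClosure ℚ ≃ₐ[ℚ] AlgebraicClosure ℚ)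

/-- **(K1)** what the assembly needs from the twist identities: integrality of the invariants of the
pencil through a base point of `W`. -/
def TwistSpec : Prop :=
  ∀ (W : WeierstrassCurve ℤ) (u0 v0 : Qb), kH u0 v0 = -((W.c₄ : ℤ) : Qb) →
    kT u0 v0 = -((W.c₆ : ℤ) : Qb) →
    ∃ P4 P6 : ℤ[X],
      P4.map (Int.castRingHom Qb) = -kH (Upoly u0 v0) (Vpoly u0 v0) ∧
      P6.map (Int.castRingHom Qb) = -kT (Upoly u0 v0) (Vpoly u0 v0)

/-- evaluation of an integer polynomial, seen in `ℚ̄`, at an integer. -/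
theorem eval_map_intCast (P : ℤ[X]) (t : ℤ) :
    (P.map (Int.castRingHom Qb)).eval ((t : ℤ) : Qb) = ((P.eval t : ℤ) : Qb) := by
  rw [← eq_intCast (Int.castRingHom Qb) t, Polynomial.eval_map, Polynomial.eval₂_hom,
    eq_intCast]

/-- values of `H` along the line, from the polynomial identity. -/
theorem kH_line_of_poly {u0 v0 : Qb} {P4 : ℤ[X]}
    (h4 : P4.map (Int.castRingHom Qb) = -kH (Upoly u0 v0) (Vpoly u0 v0)) (t : ℤ) :
    kH (u0 + ((t : ℤ) : Qb) * kfv u0 v0) (v0 - ((t : ℤ) : Qb) * kfu u0 v0)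
      = -((P4.eval t : ℤ) : Qb) := by
  have h := congrArg (Polynomial.evalRingHom ((t : ℤ) : Qb)) h4
  rw [map_neg, Klein.BGlue80.map_kH] at h
  simp only [Polynomial.coe_evalRingHom, Klein.BGlue80.eval_Upoly, Klein.BGlue80.eval_Vpoly,
    eval_map_intCast] at h
  rw [h, neg_neg]

/-- values of `T` along the line, from the polynomial identity. -/
theorem kT_line_of_poly {u0 v0 : Qb} {P6 : ℤ[X]}
    (h6 : P6.map (Int.castRingHom Qb) = -kT (Upoly u0 v0) (Vpoly u0 v0)) (t : ℤ) :
    kT (u0 + ((t : ℤ) : Qb) * kfv u0 v0) (v0 - ((t : ℤ) : Qb) * kfu u0 v0)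
      = -((P6.eval t : ℤ) : Qb) := by
  have h := congrArg (Polynomial.evalRingHom ((t : ℤ) : Qb)) h6
  rw [map_neg, Klein.BGlue80.map_kT] at h
  simp only [Polynomial.coe_evalRingHom, Klein.BGlue80.eval_Upoly, Klein.BGlue80.eval_Vpoly,
    eval_map_intCast] at h
  rw [h, neg_neg]

theorem modulus_ne_zero (W : WeierstrassCurve ℤ) (hΔ : W.Δ ≠ 0) : Member74.modulus W ≠ 0 := by
  unfold Member74.modulus
  exact mul_ne_zero (by norm_num) (pow_ne_zero _ (mul_ne_zero (by norm_num) hΔ))

/-- the rational coefficient polynomial of the pencil attached to an integer polynomial. -/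
theorem map_map_int (P : ℤ[X]) (c : ℚ) :
    (C c * P.map (Int.castRingHom ℚ)).map (algebraMap ℚ Qb)
      = C (algebraMap ℚ Qb c) * P.map (Int.castRingHom Qb) := by
  rw [Polynomial.map_mul, Polynomial.map_C, Polynomial.map_map]
  congr 2

/-- **`FamilyStmt` from the twist identities.** -/
theorem familyStmt_of_twist (hTw : TwistSpec) : FamilyStmt := by
  intro W hΔ hW _ _
  obtain ⟨u0, v0, hH0, hT0, hf0⟩ := Klein.BGlue80.exists_basePoint_of_model W hΔ
  obtain ⟨P4, P6, h4, h6⟩ := hTw W u0 v0 hH0 hT0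
  have hval4 := kH_line_of_poly h4
  have hval6 := kT_line_of_poly h6
  -- constant terms
  have h40 : P4.eval 0 = W.c₄ := by
    have h := hval4 0
    simp only [Int.cast_zero, zero_mul, add_zero, sub_zero] at h
    rw [hH0] at h
    exact_mod_cast (neg_injective h).symm
  have h60 : P6.eval 0 = W.c₆ := by
    have h := hval6 0
    simp only [Int.cast_zero, zero_mul, add_zero, sub_zero] at h
    rw [hT0] at h
    exact_mod_cast (neg_injective h).symm
  -- (C): the parameter
  obtain ⟨t, -, htK, -, hirr⟩ :=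
    CGlue.KleinHIT49.exists_int_irreducible_three_klein (K := Qb) hf0 P4 P6 h4 h6 0
      (Member74.modulus W) (modulus_ne_zero W hΔ) 0
  have hKt : Member74.modulus W ∣ t := by
    have := Int.modEq_iff_dvd.mp htK.symm
    simpa using this
  have hc4 : Member74.modulus W ∣ P4.eval t - W.c₄ := by
    rw [← h40]
    have := Polynomial.sub_dvd_eval_sub t 0 P4
    rw [sub_zero] at this
    exact hKt.trans this
  have hc6 : Member74.modulus W ∣ P6.eval t - W.c₆ := by
    rw [← h60]
    have := Polynomial.sub_dvd_eval_sub t 0 P6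
    rw [sub_zero] at this
    exact hKt.trans this
  -- (D): the member
  obtain ⟨e4, e6, hΔ', hss⟩ :=
    Member74.semistable_member W hΔ hW hH0 hT0 t (hval4 t) (hval6 t) hc4 hc6
  set W' := ModelClose74.closeModel W (P4.eval t) (P6.eval t) with hW'
  refine ⟨W', hΔ', hss, hirr W' e4 e6, ?_⟩
  -- (B): the `5`-torsion
  have hA : (C (-27 : ℚ) * P4.map (Int.castRingHom ℚ)).map (algebraMap ℚ Qb)
      = 27 * kH (Upoly u0 v0) (Vpoly u0 v0) := by
    rw [map_map_int, h4]
    have : (C (algebraMap ℚ Qb (-27)) : Qb[X]) = -27 := by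
      rw [map_neg, map_ofNat, C_neg]
      rfl
    rw [this]; ring
  have hB : (C (-54 : ℚ) * P6.map (Int.castRingHom ℚ)).map (algebraMap ℚ Qb)
      = 54 * kT (Upoly u0 v0) (Vpoly u0 v0) := by
    rw [map_map_int, h6]
    have : (C (algebraMap ℚ Qb (-54)) : Qb[X]) = -54 := by
      rw [map_neg, map_ofNat, C_neg]
      rfl
    rw [this]; ring
  have hH : kH (u0 + (((t : ℤ) : ℚ) : Qb) * kfv u0 v0) (v0 - (((t : ℤ) : ℚ) : Qb) * kfu u0 v0)
      = -((W'.c₄ : ℤ) : Qb) := by
    rw [e4, Rat.cast_intCast]; exact hval4 t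
  have hT : kT (u0 + (((t : ℤ) : ℚ) : Qb) * kfv u0 v0) (v0 - (((t : ℤ) : ℚ) : Qb) * kfu u0 v0)
      = -((W'.c₆ : ℤ) : Qb) := by
    rw [e6, Rat.cast_intCast]; exact hval6 t
  exact Spec.SpecShape20.exists_hom_member_of_polys W W' hΔ hΔ' hH0 hT0 hA hB ((t : ℤ) : ℚ) hH hT

/-- **S52 from the twist identities**: the conclusion of the frozen statement. -/
theorem s52_of_twist (hTw : TwistSpec) (W : WeierstrassCurve ℤ) (hΔ : W.Δ ≠ 0)
    (hW : W.IsSemistableModel) (h5 : W.ModRepIsIrreducible 5) :
    ∃ W' : WeierstrassCurve ℤ, W'.Δ ≠ 0 ∧ W'.IsSemistableModel ∧ W'.ModRepIsIrreducible 3 ∧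
      ∀ ℓ : ℕ, ℓ.Prime → W.IsGoodPrimeFor ℓ → W'.IsGoodPrimeFor ℓ → ℓ ≠ 5 →
        (5 : ℤ) ∣ (W'.apOfModel ℓ - W.apOfModel ℓ) :=
  TopWiring84.s52_of_family Fermat.Agent.ES.Q58.RelQbarFinal88.relQbar
    (familyStmt_of_twist hTw) W hΔ hW h5

end Fermat.Agent.S52.Asm.Final84
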