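/-
S52 (the 3-5 switch): discharge of `Final84.TwistSpec` from the twist identities `Twist51`
(helper51).  Along the line `p₀ + t q₀`, `q₀ = (f_v, -f_u)(p₀)`, through a base point `p₀` of `W`
(`H(p₀) = -c₄`, `T(p₀) = -c₆`), the forms `-H`, `-T` are the integer polynomials
`-hTw (-c₄) (-c₆) X`, `-tTw (-c₄) (-c₆) X`.
-/
import Mathlib
import Fermat.Agent.S52.Klein.TwistT51
import Fermat.Agent.S52.Asm.Final84

set_option autoImplicit false

open Polynomial

namespace Fermat.Agent.S52.Asm.TwistSpec51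

open Fermat.Agent.S52.Klein (kf kH kT kfu kfv)
open Fermat.Agent.S52.Klein.BGlue80 (Upoly Vpoly)
open Fermat.Agent.S52.Klein.Twist51

local notation "Qb" => AlgebraicClosure ℚ

/-- the `c₄`-polynomial of the family attached to an integral model. -/
noncomputable def c4Poly (W : WeierstrassCurve ℤ) : ℤ[X] := -hTw (C (-W.c₄)) (C (-W.c₆)) X

/-- the `c₆`-polynomial of the family attached to an integral model. -/
noncomputable def c6Poly (W : WeierstrassCurve ℤ) : ℤ[X] := -tTw (C (-W.c₄)) (C (-W.c₆)) X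

theorem Upoly_eq {F : Type*} [Field F] (u0 v0 : F) :
    Upoly u0 v0 = C u0 + X * kfv (C u0) (C v0) := by
  rw [Upoly, ← Fermat.Agent.S52.Klein.Twist51.map_kfv (C : F →+* F[X])]

theorem Vpoly_eq {F : Type*} [Field F] (u0 v0 : F) :
    Vpoly u0 v0 = C v0 - X * kfu (C u0) (C v0) := by
  rw [Vpoly, ← Fermat.Agent.S52.Klein.Twist51.map_kfu (C : F →+* F[X])]

theorem map_C_int (a : ℤ) :
    Polynomial.mapRingHom (Int.castRingHom Qb) (C a) = C ((a : ℤ) : Qb) := by
  simp

theorem map_X_int : Polynomial.mapRingHom (Int.castRingHom Qb) (X : ℤ[X]) = X := by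
  simp

/-- **`TwistSpec`**. -/
theorem twistSpec : Final84.TwistSpec := by
  intro W u0 v0 hH0 hT0
  refine ⟨c4Poly W, c6Poly W, ?_, ?_⟩
  · have h := kH_twist (C u0 : Qb[X]) (C v0) X
    rw [← Upoly_eq, ← Vpoly_eq, ← Fermat.Agent.S52.Klein.Twist51.map_kH (C : Qb →+* Qb[X]),
      ← Fermat.Agent.S52.Klein.Twist51.map_kT (C : Qb →+* Qb[X]), hH0, hT0] at h
    rw [h, c4Poly, ← Polynomial.coe_mapRingHom, map_neg, Fermat.Agent.S52.Klein.Twist51.map_hTw, map_C_int, map_C_int,
      map_X_int]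
    push_cast
    rfl
  · have h := kT_twist (C u0 : Qb[X]) (C v0) X
    rw [← Upoly_eq, ← Vpoly_eq, ← Fermat.Agent.S52.Klein.Twist51.map_kH (C : Qb →+* Qb[X]),
      ← Fermat.Agent.S52.Klein.Twist51.map_kT (C : Qb →+* Qb[X]), hH0, hT0] at h
    rw [h, c6Poly, ← Polynomial.coe_mapRingHom, map_neg, Fermat.Agent.S52.Klein.Twist51.map_tTw, map_C_int, map_C_int,
      map_X_int]
    push_cast
    rfl

end Fermat.Agent.S52.Asm.TwistSpec51
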