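/-
S52 (the 3-5 switch): FINAL ASSEMBLY of `TopWiring84.FamilyStmt` (helper84, per plan of helper51).

Input contracts (each a `Prop` about an integral model `W` and two functions `c4T c6T : ℤ → ℤ`,
the invariants of the members of the twisted Klein family through `W`):

* `LineSpec`  : along the line `p₀ + t q₀`, `q₀ = (f_v, -f_u)(p₀)`, through ANY base point `p₀` with
                `H(p₀) = -c₄(W)`, `T(p₀) = -c₆(W)` one has `H = -c4T t`, `T = -c6T t`   (brick K1);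
* `CloseSpec` : `t ∣ c4T t - c₄(W)` and `t ∣ c6T t - c₆(W)`                             (brick K1);
* `CongSpec`  : every integral model with invariants `(c4T t, c6T t)` and `Δ ≠ 0` is `5`-congruent
                to `W`                                                        (bricks B3 + transport);
* `IrredSpec` : for every finite set `B` of primes there are a prime `l ∉ B` and a residue `n` such
                that every semistable model with invariants `(c4T t, c6T t)`, `t ≡ n (mod l)`, has an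
                irreducible mod `3` representation                                        (brick C).

Output: `exists_switch` (the member `W'`), and `familyStmt_of_specs`.
The semistability of the member is proved here from `ModelClose74` and `FarClause74`.
-/
import Mathlib
import Fermat.Agent.S52.TopWiring84
import Fermat.Agent.S52.Model.ModelClose74
import Fermat.Agent.S52.Model.FarClause74
import Fermat.Agent.S52.Klein.Defs51
import Fermat.Agent.S52.Klein.BasePoint80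

set_option autoImplicit false

namespace Fermat.Agent.S52.Asm.Assembly84

open Fermat.Agent.S52.TopWiring84 (Tors FamilyStmt)
open Fermat.Agent.S52.Klein (kf kH kT kfu kfv)
open Fermat.Agent.S52.Model

local notation "Qb" => AlgebraicClosure ℚ
local notation "GQ" => (AlgebraicClosure ℚ ≃ₐ[ℚ] AlgebraicClosure ℚ)

/-! ### the contracts -/

/-- **(K1)** the invariants along the line through a base point. -/
def LineSpec (W : WeierstrassCurve ℤ) (c4T c6T : ℤ → ℤ) : Prop :=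
  ∀ u v : Qb, kH u v = -((W.c₄ : ℤ) : Qb) → kT u v = -((W.c₆ : ℤ) : Qb) → ∀ t : ℤ,
    kH (u + (t : Qb) * kfv u v) (v - (t : Qb) * kfu u v) = -((c4T t : ℤ) : Qb) ∧
    kT (u + (t : Qb) * kfv u v) (v - (t : Qb) * kfu u v) = -((c6T t : ℤ) : Qb)

/-- **(K1)** the member at `t` is `t`-adically close to `W`. -/
def CloseSpec (W : WeierstrassCurve ℤ) (c4T c6T : ℤ → ℤ) : Prop :=
  ∀ t : ℤ, t ∣ c4T t - W.c₄ ∧ t ∣ c6T t - W.c₆

/-- **(B)** every member is `5`-congruent to `W`. -/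
def CongSpec (W : WeierstrassCurve ℤ) (c4T c6T : ℤ → ℤ) : Prop :=
  ∀ (t : ℤ) (W' : WeierstrassCurve ℤ), W'.c₄ = c4T t → W'.c₆ = c6T t → W'.Δ ≠ 0 →
    ∃ φ : Tors W 5 →+ Tors W' 5, Function.Surjective φ ∧
      ∀ (σ : GQ) (x : Tors W 5), φ (σ • x) = σ • φ x

/-- **(C)** a congruence class of members with irreducible `3`-torsion, away from any finite set of
primes. -/
def IrredSpec (_W : WeierstrassCurve ℤ) (c4T c6T : ℤ → ℤ) : Prop :=
  ∀ B : Finset ℕ, ∃ l : ℕ, l.Prime ∧ l ∉ B ∧ ∃ n : ℤ, ∀ t : ℤ, t ≡ n [ZMOD (l : ℤ)] →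
    ∀ W' : WeierstrassCurve ℤ, W'.c₄ = c4T t → W'.c₆ = c6T t → W'.Δ ≠ 0 →
      W'.IsSemistableModel → W'.ModRepIsIrreducible 3

/-! ### bridges between the three copies of Klein's forms -/

theorem kF74_eq {R : Type*} [CommRing R] (u v : R) : FarClause74.kF u v = kf u v := rfl

theorem kH74_eq {R : Type*} [CommRing R] (u v : R) : FarClause74.kH u v = -kH u v := by
  unfold FarClause74.kH kH; ring

theorem kFu74_eq {R : Type*} [CommRing R] (u v : R) : FarClause74.kFu u v = kfu u v := rfl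

theorem kFv74_eq {R : Type*} [CommRing R] (u v : R) : FarClause74.kFv u v = kfv u v := rfl

theorem kH80_eq {R : Type*} [CommRing R] (u v : R) : Klein.BasePoint80.kH u v = kH u v := rfl

theorem kT80_eq {R : Type*} [CommRing R] (u v : R) : Klein.BasePoint80.kT u v = kT u v := rfl

/-! ### the base point -/

/-- `c₄³ - c₆² = 1728 Δ` in `ℚ̄`. -/
theorem c_relation_Qb (W : WeierstrassCurve ℤ) :
    ((W.c₄ : ℤ) : Qb) ^ 3 - ((W.c₆ : ℤ) : Qb) ^ 2 = 1728 * ((W.Δ : ℤ) : Qb) := by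
  have h := W.c_relation
  have := congrArg (Int.cast : ℤ → Qb) h
  push_cast at this
  linear_combination -this

/-- a base point of the Klein family for `W`. -/
theorem exists_basePoint (W : WeierstrassCurve ℤ) (hΔ : W.Δ ≠ 0) :
    ∃ u v : Qb, kH u v = -((W.c₄ : ℤ) : Qb) ∧ kT u v = -((W.c₆ : ℤ) : Qb) := by
  have hD : (-((W.c₄ : ℤ) : Qb)) ^ 3 + (-((W.c₆ : ℤ) : Qb)) ^ 2 ≠ 0 := by
    have h := c_relation_Qb W
    have hne : (1728 : Qb) * ((W.Δ : ℤ) : Qb) ≠ 0 :=
      mul_ne_zero (by norm_num) (by exact_mod_cast hΔ)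
    intro h0
    apply hne
    rw [← h]
    linear_combination -h0
  obtain ⟨u, v, h1, h2⟩ := Klein.BasePoint80.exists_basePoint (K := Qb) _ _ hD
  exact ⟨u, v, by rw [← kH80_eq]; exact h1, by rw [← kT80_eq]; exact h2⟩

/-- `f(p)⁵ = -Δ` whenever `H(p) = -c₄`, `T(p) = -c₆`. -/
theorem kf_pow_five (W : WeierstrassCurve ℤ) {u v : Qb} (hH : kH u v = -((W.c₄ : ℤ) : Qb))
    (hT : kT u v = -((W.c₆ : ℤ) : Qb)) : kf u v ^ 5 = ((-W.Δ : ℤ) : Qb) := by
  have h1 := Klein.klein_relation u v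
  rw [hH, hT] at h1
  have h2 := c_relation_Qb W
  have h3 : (1728 : Qb) * (kf u v ^ 5 - ((-W.Δ : ℤ) : Qb)) = 0 := by
    push_cast
    linear_combination -h1 - h2
  have h4 := (mul_eq_zero.mp h3).resolve_left (by norm_num)
  exact sub_eq_zero.mp h4

/-! ### the far clause -/

/-- **far clause** for a member of the family: at a prime `q ∤ 30 Δ(W)`, `q ∣ Δ(W')` implies
`q ∤ c₄(W')`. -/
theorem far_of_lineSpec (W : WeierstrassCurve ℤ) (hΔ : W.Δ ≠ 0) {c4T c6T : ℤ → ℤ}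
    (hline : LineSpec W c4T c6T) (t : ℤ) (W' : WeierstrassCurve ℤ) (h4' : W'.c₄ = c4T t)
    (h6' : W'.c₆ = c6T t) {q : ℕ} (hq : q.Prime) (hq30 : ¬ (q : ℤ) ∣ 30) (hqΔ : ¬ (q : ℤ) ∣ W.Δ)
    (hqΔ' : (q : ℤ) ∣ W'.Δ) : ¬ (q : ℤ) ∣ W'.c₄ := by
  obtain ⟨A, hA⟩ := Fermat.Agent.Lib.FrobeniusExists.exists_valuationSubring_liesOverPrime q hq
  obtain ⟨u, v, hH, hT⟩ := exists_basePoint W hΔ
  obtain ⟨hHt, hTt⟩ := hline u v hH hT t
  rw [← h4'] at hHt
  rw [← h6'] at hTt
  have hD : ¬ (q : ℤ) ∣ -W.Δ := by rwa [dvd_neg]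
  have hD' : (q : ℤ) ∣ -W'.Δ := by rwa [dvd_neg]
  refine FarClause74.far_clause (K := Qb) A hq hA hq30 (u0 := u) (v0 := v) (c := W.c₄)
    (D := -W.Δ) ?_ ?_ hD (s := 1) (t := t) isCoprime_one_left (c' := W'.c₄) (D' := -W'.Δ)
    ?_ ?_ hD'
  · rw [kH74_eq, hH, neg_neg]
  · rw [kF74_eq]; exact kf_pow_five W hH hT
  · rw [kH74_eq, kFv74_eq, kFu74_eq]
    simp only [Int.cast_one, one_mul]
    rw [hHt, neg_neg]
  · rw [kF74_eq, kFv74_eq, kFu74_eq]
    simp only [Int.cast_one, one_mul]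
    exact kf_pow_five W' hHt hTt

/-! ### Chinese remainder theorem, in the form used below -/

theorem exists_crt {K l n : ℤ} (h : IsCoprime K l) : ∃ t : ℤ, K ∣ t ∧ t ≡ n [ZMOD l] := by
  obtain ⟨a, b, hab⟩ := h
  refine ⟨n * (a * K), Dvd.dvd.mul_left (Dvd.intro_left a rfl) n, ?_⟩
  have : n * (a * K) = n - l * (n * b) := by linear_combination n * hab
  rw [this]
  exact Int.modEq_iff_dvd.mpr ⟨n * b, by ring⟩

/-! ### the member -/

/-- **The switch**: a semistable member of the family with irreducible `3`-torsion, `5`-congruent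
to `W`. -/
theorem exists_switch (W : WeierstrassCurve ℤ) (hΔ : W.Δ ≠ 0) (hW : W.IsSemistableModel)
    {c4T c6T : ℤ → ℤ} (hline : LineSpec W c4T c6T) (hclose : CloseSpec W c4T c6T)
    (hcong : CongSpec W c4T c6T) (hirr : IrredSpec W c4T c6T) :
    ∃ W' : WeierstrassCurve ℤ, W'.Δ ≠ 0 ∧ W'.IsSemistableModel ∧ W'.ModRepIsIrreducible 3 ∧
      ∃ φ : Tors W 5 →+ Tors W' 5, Function.Surjective φ ∧
        ∀ (σ : GQ) (x : Tors W 5), φ (σ • x) = σ • φ x := by
  -- a prime not dividing `Δ`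
  obtain ⟨q₁, hq₁le, hq₁⟩ := Nat.exists_infinite_primes (W.Δ.natAbs + 1)
  have hq₁Δ : ¬ (q₁ : ℤ) ∣ W.Δ := by
    intro h
    have h1 : q₁ ∣ W.Δ.natAbs := Int.natCast_dvd.mp h
    have h2 : q₁ ≤ W.Δ.natAbs := Nat.le_of_dvd (Int.natAbs_pos.mpr hΔ) h1
    omega
  -- the modulus
  set K : ℤ := 1728 * (30 * W.Δ * (q₁ : ℤ)) with hKdef
  have hq₁0 : (q₁ : ℤ) ≠ 0 := by exact_mod_cast hq₁.ne_zero
  have hK0 : K ≠ 0 := by
    rw [hKdef]
    exact mul_ne_zero (by norm_num) (mul_ne_zero (mul_ne_zero (by norm_num) hΔ) hq₁0)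
  have hKq₁ : 1728 * (q₁ : ℤ) ∣ K := by
    rw [hKdef]; exact mul_dvd_mul_left _ (Dvd.intro_left _ rfl)
  -- the auxiliary prime of (C)
  obtain ⟨l, hl, hlB, n, hn⟩ := hirr K.natAbs.primeFactors
  have hlK : ¬ (l : ℤ) ∣ K := by
    intro h
    apply hlB
    rw [Nat.mem_primeFactors]
    exact ⟨hl, Int.natCast_dvd.mp h, Int.natAbs_ne_zero.mpr hK0⟩
  have hcop : IsCoprime K (l : ℤ) :=
    (((Nat.prime_iff_prime_int.mp hl).coprime_iff_not_dvd).mpr hlK).symm
  obtain ⟨t, hKt, htn⟩ := exists_crt (n := n) hcop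
  -- the member
  obtain ⟨hc4, hc6⟩ := hclose t
  have h4K : K ∣ c4T t - W.c₄ := hKt.trans hc4
  have h6K : K ∣ c6T t - W.c₆ := hKt.trans hc6
  have h1728K : (1728 : ℤ) ∣ K := by rw [hKdef]; exact Dvd.intro _ rfl
  obtain ⟨W', -, -, -, h4', h6'⟩ :=
    ModelClose74.exists_model_of_close W (h1728K.trans h4K) (h1728K.trans h6K)
  have h4 : K ∣ W'.c₄ - W.c₄ := by rw [h4']; exact h4K
  have h6 : K ∣ W'.c₆ - W.c₆ := by rw [h6']; exact h6K
  have hΔ' : W'.Δ ≠ 0 := ModelClose74.Δ_ne_zero_of_close W W' hKq₁ h4 h6 hq₁Δ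
  have hss : W'.IsSemistableModel := by
    refine ModelClose74.isSemistableModel_of_close W W' hW h4 h6 ?_
    intro q hq hqK hqΔ'
    have hq30Δ : ¬ (q : ℤ) ∣ 30 * W.Δ := by
      intro h
      apply hqK
      rw [hKdef]
      exact mul_dvd_mul_left _ (Dvd.dvd.mul_right h _)
    have hq30 : ¬ (q : ℤ) ∣ 30 := fun h => hq30Δ (Dvd.dvd.mul_right h _)
    have hqΔ : ¬ (q : ℤ) ∣ W.Δ := fun h => hq30Δ (Dvd.dvd.mul_left h _)
    exact far_of_lineSpec W hΔ hline t W' h4' h6' hq hq30 hqΔ hqΔ'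
  exact ⟨W', hΔ', hss, hn t htn W' h4' h6' hΔ' hss, hcong t W' h4' h6' hΔ'⟩

/-- **`FamilyStmt` from the four contracts.** -/
theorem familyStmt_of_specs
    (h : ∀ W : WeierstrassCurve ℤ, W.Δ ≠ 0 → W.IsSemistableModel → W.ModRepIsIrreducible 5 →
      ¬ W.ModRepIsIrreducible 3 →
      ∃ c4T c6T : ℤ → ℤ, LineSpec W c4T c6T ∧ CloseSpec W c4T c6T ∧ CongSpec W c4T c6T ∧
        IrredSpec W c4T c6T) : FamilyStmt := by
  intro W hΔ hW h5 h3
  obtain ⟨c4T, c6T, hline, hclose, hcong, hirr⟩ := h W hΔ hW h5 h3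
  exact exists_switch W hΔ hW hline hclose hcong hirr

end Fermat.Agent.S52.Asm.Assembly84
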