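/-
S52 (the 3-5 switch): the Hilbert-irreducibility route plugged into helper84's FINAL ASSEMBLY
(`Asm/Assembly84.lean`), by helper62.

* `IrredSpecH` : route-agnostic form of contract (C): for every nonzero modulus `K₀` there is a
  member `t ≡ 0 (mod K₀)` all of whose semistable integral models have irreducible `3`-torsion.
* `irredSpecH_of_irredSpec` : the primary route (`Assembly84.IrredSpec`) gives `IrredSpecH` (CRT).
* `irredSpecH_of_lineSpec`  : **`LineSpec` alone gives `IrredSpecH`** as soon as the two functions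
  `c4T c6T : ℤ → ℤ` are polynomial functions with integer coefficients (Hilbert irreducibility
  `HIT48` + `NoThreeIsog62` + `KleinLine49`; no Galois-theoretic input).
* `exists_switchH`, `familyStmt_of_specsH`, `familyStmt_of_line` : the assembly with `IrredSpecH`,
  resp. with contract (C) removed altogether.
-/
import Mathlib
import Fermat.Agent.S52.Asm.Assembly84
import Fermat.Agent.S52.C.KleinHIT62

set_option autoImplicit false

namespace Fermat.Agent.S52.Asm.AssemblyH62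

open Fermat.Agent.S52.TopWiring84 (Tors FamilyStmt)
open Fermat.Agent.S52.Klein (kf kH kT kfu kfv)
open Fermat.Agent.S52.Model
open Fermat.Agent.S52.Asm.Assembly84

local notation "Qb" => AlgebraicClosure ℚ
local notation "GQ" => (AlgebraicClosure ℚ ≃ₐ[ℚ] AlgebraicClosure ℚ)

/-- **(C)**, route-agnostic form. -/
def IrredSpecH (_W : WeierstrassCurve ℤ) (c4T c6T : ℤ → ℤ) : Prop :=
  ∀ K₀ : ℤ, K₀ ≠ 0 → ∃ t : ℤ, K₀ ∣ t ∧
    ∀ W' : WeierstrassCurve ℤ, W'.c₄ = c4T t → W'.c₆ = c6T t → W'.Δ ≠ 0 →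
      W'.IsSemistableModel → W'.ModRepIsIrreducible 3

/-- The primary route gives the route-agnostic contract. -/
theorem irredSpecH_of_irredSpec (W : WeierstrassCurve ℤ) {c4T c6T : ℤ → ℤ}
    (hirr : IrredSpec W c4T c6T) : IrredSpecH W c4T c6T := by
  intro K hK0
  obtain ⟨l, hl, hlB, n, hn⟩ := hirr K.natAbs.primeFactors
  have hlK : ¬ (l : ℤ) ∣ K := by
    intro h
    apply hlB
    rw [Nat.mem_primeFactors]
    exact ⟨hl, Int.natCast_dvd.mp h, Int.natAbs_ne_zero.mpr hK0⟩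
  have hcop : IsCoprime K (l : ℤ) :=
    (((Nat.prime_iff_prime_int.mp hl).coprime_iff_not_dvd).mpr hlK).symm
  obtain ⟨t, hKt, htn⟩ := exists_crt (n := n) hcop
  exact ⟨t, hKt, hn t htn⟩

/-! ### Hilbert irreducibility: `LineSpec` implies `IrredSpecH` -/

open Polynomial in
/-- **Contract (C) from `LineSpec`** by Hilbert irreducibility, for polynomial families. -/
theorem irredSpecH_of_lineSpec (W : WeierstrassCurve ℤ) (hΔ : W.Δ ≠ 0) {c4T c6T : ℤ → ℤ}
    (hline : LineSpec W c4T c6T) (c4p c6p : ℤ[X])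
    (h4p : ∀ t : ℤ, c4T t = c4p.eval t) (h6p : ∀ t : ℤ, c6T t = c6p.eval t) :
    IrredSpecH W c4T c6T := by
  intro K₀ hK₀
  obtain ⟨u, v, hH, hT⟩ := exists_basePoint W hΔ
  have hf5 := kf_pow_five W hH hT
  have hf : kf u v ≠ 0 := by
    intro h0
    rw [h0] at hf5
    have : ((-W.Δ : ℤ) : Qb) ≠ 0 := by
      exact_mod_cast neg_ne_zero.mpr hΔ
    apply this
    rw [← hf5]; ring
  set a : Qb := kfv u v with ha
  set b : Qb := -kfu u v with hb
  have hδ : u * b - v * a ≠ 0 := by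
    have he := Fermat.Agent.S52.Klein.euler u v
    have : u * b - v * a = -12 * kf u v := by rw [ha, hb]; linear_combination -he
    rw [this]
    exact mul_ne_zero (by norm_num) hf
  -- the polynomial identities, from agreement at all integers
  have hinf : (Set.range (fun t : ℤ => (t : Qb))).Infinite :=
    Set.infinite_range_of_injective Int.cast_injective
  have hevalU : ∀ t : ℤ, eval (t : Qb) (CGlue.KleinLine49.lineU u a) = u + (t : Qb) * kfv u v := by
    intro t
    simp only [CGlue.KleinLine49.lineU, eval_add, eval_mul, eval_C, eval_X]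
    ring
  have hevalV : ∀ t : ℤ, eval (t : Qb) (CGlue.KleinLine49.lineV v b) = v - (t : Qb) * kfu u v := by
    intro t
    simp only [CGlue.KleinLine49.lineV, eval_add, eval_mul, eval_C, eval_X, hb]
    ring
  have h4 : c4p.map (Int.castRingHom Qb)
      = -CGlue.KleinLine49.kH (CGlue.KleinLine49.lineU u a) (CGlue.KleinLine49.lineV v b) := by
    apply eq_of_infinite_eval_eq
    refine hinf.mono ?_
    rintro _ ⟨t, rfl⟩
    show eval (t : Qb) _ = eval (t : Qb) _
    rw [eval_neg, ← coe_evalRingHom, CGlue.KleinLine49.map_kH, coe_evalRingHom, hevalU, hevalV]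
    have h1 : eval (t : Qb) (c4p.map (Int.castRingHom Qb)) = ((c4p.eval t : ℤ) : Qb) := by
      rw [eval_map, eval₂_at_intCast]; rfl
    rw [h1, ← h4p t]
    have := (hline u v hH hT t).1
    show _ = -kH _ _
    rw [this, neg_neg]
  have h6 : c6p.map (Int.castRingHom Qb)
      = -CGlue.KleinLine49.kT (CGlue.KleinLine49.lineU u a) (CGlue.KleinLine49.lineV v b) := by
    apply eq_of_infinite_eval_eq
    refine hinf.mono ?_
    rintro _ ⟨t, rfl⟩
    show eval (t : Qb) _ = eval (t : Qb) _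
    rw [eval_neg, ← coe_evalRingHom, CGlue.KleinLine49.map_kT, coe_evalRingHom, hevalU, hevalV]
    have h1 : eval (t : Qb) (c6p.map (Int.castRingHom Qb)) = ((c6p.eval t : ℤ) : Qb) := by
      rw [eval_map, eval₂_at_intCast]; rfl
    rw [h1, ← h6p t]
    have := (hline u v hH hT t).2
    show _ = -kT _ _
    rw [this, neg_neg]
  obtain ⟨k, -, hk, -, hirr⟩ :=
    Fermat.Agent.S52.C.KleinHIT62.exists_int_irreducible_three_of_line u v a b hδ
      c4p c6p h4 h6 0 K₀ hK₀ 0
  refine ⟨k, ?_, ?_⟩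
  · have := Int.modEq_iff_dvd.mp hk.symm
    simpa using this
  · intro W' hc4 hc6 _ _
    exact hirr W' (by rw [hc4, h4p]) (by rw [hc6, h6p])

/-! ### the member -/

/-- **The switch**, with contract (C) in route-agnostic form. -/
theorem exists_switchH (W : WeierstrassCurve ℤ) (hΔ : W.Δ ≠ 0) (hW : W.IsSemistableModel)
    {c4T c6T : ℤ → ℤ} (hline : LineSpec W c4T c6T) (hclose : CloseSpec W c4T c6T)
    (hcong : CongSpec W c4T c6T) (hirr : IrredSpecH W c4T c6T) :
    ∃ W' : WeierstrassCurve ℤ, W'.Δ ≠ 0 ∧ W'.IsSemistableModel ∧ W'.ModRepIsIrreducible 3 ∧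
      ∃ φ : Tors W 5 →+ Tors W' 5, Function.Surjective φ ∧
        ∀ (σ : GQ) (x : Tors W 5), φ (σ • x) = σ • φ x := by
  -- a prime not dividing `Δ`
  obtain ⟨q₁, hq₁le, hq₁⟩ := Nat.exists_infinite_primes (W.Δ.natAbs + 1)
  have hq₁Δ : ¬ (q₁ : ℤ) ∣ W.Δ := by
    intro h
    have h1 : q₁ ∣ W.Δ.natAbs := Int.natCast_dvd.mp h
    have h2 : q₁ ≤ W.Δ.natAbs := Nat.le_of_dvd (Int.natAbs_pos.mpr hΔ) h1
    omega
  -- the modulus
  set K : ℤ := 1728 * (30 * W.Δ * (q₁ : ℤ)) with hKdef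
  have hq₁0 : (q₁ : ℤ) ≠ 0 := by exact_mod_cast hq₁.ne_zero
  have hK0 : K ≠ 0 := by
    rw [hKdef]
    exact mul_ne_zero (by norm_num) (mul_ne_zero (mul_ne_zero (by norm_num) hΔ) hq₁0)
  have hKq₁ : 1728 * (q₁ : ℤ) ∣ K := by
    rw [hKdef]; exact mul_dvd_mul_left _ (Dvd.intro_left _ rfl)
  -- the member given by (C)
  obtain ⟨t, hKt, hn⟩ := hirr K hK0
  obtain ⟨hc4, hc6⟩ := hclose t
  have h4K : K ∣ c4T t - W.c₄ := hKt.trans hc4
  have h6K : K ∣ c6T t - W.c₆ := hKt.trans hc6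
  have h1728K : (1728 : ℤ) ∣ K := by rw [hKdef]; exact Dvd.intro _ rfl
  obtain ⟨W', -, -, -, h4', h6'⟩ :=
    ModelClose74.exists_model_of_close W (h1728K.trans h4K) (h1728K.trans h6K)
  have h4 : K ∣ W'.c₄ - W.c₄ := by rw [h4']; exact h4K
  have h6 : K ∣ W'.c₆ - W.c₆ := by rw [h6']; exact h6K
  have hΔ' : W'.Δ ≠ 0 := ModelClose74.Δ_ne_zero_of_close W W' hKq₁ h4 h6 hq₁Δ
  have hss : W'.IsSemistableModel := by
    refine ModelClose74.isSemistableModel_of_close W W' hW h4 h6 ?_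
    intro q hq hqK hqΔ'
    have hq30Δ : ¬ (q : ℤ) ∣ 30 * W.Δ := by
      intro h
      apply hqK
      rw [hKdef]
      exact mul_dvd_mul_left _ (Dvd.dvd.mul_right h _)
    have hq30 : ¬ (q : ℤ) ∣ 30 := fun h => hq30Δ (Dvd.dvd.mul_right h _)
    have hqΔ : ¬ (q : ℤ) ∣ W.Δ := fun h => hq30Δ (Dvd.dvd.mul_left h _)
    exact far_of_lineSpec W hΔ hline t W' h4' h6' hq hq30 hqΔ hqΔ'
  exact ⟨W', hΔ', hss, hn W' h4' h6' hΔ' hss, hcong t W' h4' h6' hΔ'⟩

/-- **`FamilyStmt` from the contracts**, (C) in route-agnostic form. -/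
theorem familyStmt_of_specsH
    (h : ∀ W : WeierstrassCurve ℤ, W.Δ ≠ 0 → W.IsSemistableModel → W.ModRepIsIrreducible 5 →
      ¬ W.ModRepIsIrreducible 3 →
      ∃ c4T c6T : ℤ → ℤ, LineSpec W c4T c6T ∧ CloseSpec W c4T c6T ∧ CongSpec W c4T c6T ∧
        IrredSpecH W c4T c6T) : FamilyStmt := by
  intro W hΔ hW h5 h3
  obtain ⟨c4T, c6T, hline, hclose, hcong, hirr⟩ := h W hΔ hW h5 h3
  exact exists_switchH W hΔ hW hline hclose hcong hirr

open Polynomial in
/-- **`FamilyStmt` WITHOUT contract (C)**: it suffices that the family is given by integer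
polynomials and satisfies `LineSpec`, `CloseSpec`, `CongSpec`. -/
theorem familyStmt_of_line
    (h : ∀ W : WeierstrassCurve ℤ, W.Δ ≠ 0 → W.IsSemistableModel → W.ModRepIsIrreducible 5 →
      ¬ W.ModRepIsIrreducible 3 →
      ∃ c4p c6p : ℤ[X], LineSpec W (fun t => c4p.eval t) (fun t => c6p.eval t) ∧
        CloseSpec W (fun t => c4p.eval t) (fun t => c6p.eval t) ∧
        CongSpec W (fun t => c4p.eval t) (fun t => c6p.eval t)) : FamilyStmt := by
  intro W hΔ hW h5 h3
  obtain ⟨c4p, c6p, hline, hclose, hcong⟩ := h W hΔ hW h5 h3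
  exact exists_switchH W hΔ hW hline hclose hcong
    (irredSpecH_of_lineSpec W hΔ hline c4p c6p (fun _ => rfl) (fun _ => rfl))

end Fermat.Agent.S52.Asm.AssemblyH62
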