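/-
S52 (the 3-5 switch): the WHOLE statement from the twist identities alone (helper62).

For a family given by integer polynomials `c4p c6p : ℤ[X]`, the two contracts of brick (K1)
(`Assembly84.LineSpec`, pointwise at integers `t`, and `Assembly84.CloseSpec`) imply

* `congSpec_of_lineSpec` : contract (B) `Assembly84.CongSpec` (specialisation theorem `Spec20`,
  (B)-glue `BGlue80`; the rationality hypotheses `hA`, `hB` of the pencil follow from the pointwise
  `LineSpec` because a polynomial identity over `ℚ̄` can be checked at all integers);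
* contract (C) (`AssemblyH62.irredSpecH_of_lineSpec`, Hilbert irreducibility);

hence `familyStmt_of_twist` and, with the Eichler-Shimura relation `RelQbarFinal88.relQbar`,
`s52_of_twist` : the conclusion of the frozen statement S52.
-/
import Mathlib
import Fermat.Agent.S52.Asm.AssemblyH62
import Fermat.Agent.S52.Spec.SpecShape20
import Fermat.Agent.ES.Q58.RelQbarFinal88

set_option autoImplicit false

namespace Fermat.Agent.S52.Asm.FinalH62

open Fermat.Agent.S52.TopWiring84 (Tors FamilyStmt)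
open Fermat.Agent.S52.Klein (kf kH kT kfu kfv)
open Fermat.Agent.S52.Asm.Assembly84 Fermat.Agent.S52.Asm.AssemblyH62
open Polynomial

local notation "Qb" => AlgebraicClosure ℚ
local notation "GQ" => (AlgebraicClosure ℚ ≃ₐ[ℚ] AlgebraicClosure ℚ)

/-- **Contract (B) from `LineSpec`**, for a polynomial family. -/
theorem congSpec_of_lineSpec (W : WeierstrassCurve ℤ) (hΔ : W.Δ ≠ 0) (c4p c6p : ℤ[X])
    (hline : LineSpec W (fun t => c4p.eval t) (fun t => c6p.eval t)) :
    CongSpec W (fun t => c4p.eval t) (fun t => c6p.eval t) := by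
  intro t W' h4' h6' hΔ'
  obtain ⟨u, v, hH, hT⟩ := exists_basePoint W hΔ
  -- the pencil is rational
  have hinf : (Set.range (fun t : ℤ => (t : Qb))).Infinite :=
    Set.infinite_range_of_injective Int.cast_injective
  have hcomp : (algebraMap ℚ Qb).comp (Int.castRingHom ℚ) = Int.castRingHom Qb :=
    RingHom.ext_int _ _
  have hevalint : ∀ (p : ℤ[X]) (s : ℤ),
      eval (s : Qb) (p.map (Int.castRingHom Qb)) = ((p.eval s : ℤ) : Qb) := by
    intro p s
    rw [eval_map, eval₂_at_intCast]; rfl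
  have hmapC : ∀ (c : ℚ) (p : ℤ[X]), (C c * p.map (Int.castRingHom ℚ)).map (algebraMap ℚ Qb)
      = C (algebraMap ℚ Qb c) * p.map (Int.castRingHom Qb) := by
    intro c p
    rw [Polynomial.map_mul, Polynomial.map_C, Polynomial.map_map, hcomp]
  have hkH : ∀ s : ℤ, eval (s : Qb) (kH (Klein.BGlue80.Upoly u v) (Klein.BGlue80.Vpoly u v))
      = kH (u + (s : Qb) * kfv u v) (v - (s : Qb) * kfu u v) := by
    intro s
    have := Klein.BGlue80.map_kH (evalRingHom (s : Qb)) (Klein.BGlue80.Upoly u v)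
      (Klein.BGlue80.Vpoly u v)
    simp only [coe_evalRingHom, Klein.BGlue80.eval_Upoly, Klein.BGlue80.eval_Vpoly] at this
    exact this
  have hkT : ∀ s : ℤ, eval (s : Qb) (kT (Klein.BGlue80.Upoly u v) (Klein.BGlue80.Vpoly u v))
      = kT (u + (s : Qb) * kfv u v) (v - (s : Qb) * kfu u v) := by
    intro s
    have := Klein.BGlue80.map_kT (evalRingHom (s : Qb)) (Klein.BGlue80.Upoly u v)
      (Klein.BGlue80.Vpoly u v)
    simp only [coe_evalRingHom, Klein.BGlue80.eval_Upoly, Klein.BGlue80.eval_Vpoly] at this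
    exact this
  have hA : (C (-27 : ℚ) * c4p.map (Int.castRingHom ℚ)).map (algebraMap ℚ Qb)
      = 27 * kH (Klein.BGlue80.Upoly u v) (Klein.BGlue80.Vpoly u v) := by
    apply eq_of_infinite_eval_eq
    refine hinf.mono ?_
    rintro _ ⟨s, rfl⟩
    show eval (s : Qb) _ = eval (s : Qb) _
    rw [hmapC, eval_mul, eval_C, hevalint, eval_mul, hkH, (hline u v hH hT s).1, eval_ofNat]
    simp only [map_neg, map_ofNat]
    ring
  have hB : (C (-54 : ℚ) * c6p.map (Int.castRingHom ℚ)).map (algebraMap ℚ Qb)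
      = 54 * kT (Klein.BGlue80.Upoly u v) (Klein.BGlue80.Vpoly u v) := by
    apply eq_of_infinite_eval_eq
    refine hinf.mono ?_
    rintro _ ⟨s, rfl⟩
    show eval (s : Qb) _ = eval (s : Qb) _
    rw [hmapC, eval_mul, eval_C, hevalint, eval_mul, hkT, (hline u v hH hT s).2, eval_ofNat]
    simp only [map_neg, map_ofNat]
    ring
  obtain ⟨hHt, hTt⟩ := hline u v hH hT t
  have hH' : kH (u + (((t : ℚ) : ℚ) : Qb) * kfv u v) (v - (((t : ℚ) : ℚ) : Qb) * kfu u v)
      = -((W'.c₄ : ℤ) : Qb) := by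
    rw [h4']
    have : (((t : ℚ) : ℚ) : Qb) = ((t : ℤ) : Qb) := by norm_cast
    rw [this]
    exact hHt
  have hT' : kT (u + (((t : ℚ) : ℚ) : Qb) * kfv u v) (v - (((t : ℚ) : ℚ) : Qb) * kfu u v)
      = -((W'.c₆ : ℤ) : Qb) := by
    rw [h6']
    have : (((t : ℚ) : ℚ) : Qb) = ((t : ℤ) : Qb) := by norm_cast
    rw [this]
    exact hTt
  exact Fermat.Agent.S52.Spec.SpecShape20.exists_hom_member_of_polys W W' hΔ hΔ' hH hT hA hB
    (t : ℚ) hH' hT'

/-- **`FamilyStmt` from the twist identities alone.** -/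
theorem familyStmt_of_twist
    (h : ∀ W : WeierstrassCurve ℤ, W.Δ ≠ 0 → W.IsSemistableModel → W.ModRepIsIrreducible 5 →
      ¬ W.ModRepIsIrreducible 3 →
      ∃ c4p c6p : ℤ[X], LineSpec W (fun t => c4p.eval t) (fun t => c6p.eval t) ∧
        CloseSpec W (fun t => c4p.eval t) (fun t => c6p.eval t)) : FamilyStmt := by
  apply familyStmt_of_line
  intro W hΔ hW h5 h3
  obtain ⟨c4p, c6p, hline, hclose⟩ := h W hΔ hW h5 h3
  exact ⟨c4p, c6p, hline, hclose, congSpec_of_lineSpec W hΔ c4p c6p hline⟩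

/-- **S52 from the twist identities alone**: the conclusion of the frozen statement. -/
theorem s52_of_twist
    (h : ∀ W : WeierstrassCurve ℤ, W.Δ ≠ 0 →
      ∃ c4p c6p : ℤ[X], LineSpec W (fun t => c4p.eval t) (fun t => c6p.eval t) ∧
        CloseSpec W (fun t => c4p.eval t) (fun t => c6p.eval t))
    (W : WeierstrassCurve ℤ) (hΔ : W.Δ ≠ 0) (hW : W.IsSemistableModel)
    (h5 : W.ModRepIsIrreducible 5) :
    ∃ W' : WeierstrassCurve ℤ, W'.Δ ≠ 0 ∧ W'.IsSemistableModel ∧ W'.ModRepIsIrreducible 3 ∧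
      ∀ ℓ : ℕ, ℓ.Prime → W.IsGoodPrimeFor ℓ → W'.IsGoodPrimeFor ℓ → ℓ ≠ 5 →
        (5 : ℤ) ∣ (W'.apOfModel ℓ - W.apOfModel ℓ) :=
  Fermat.Agent.S52.TopWiring84.s52_of_family Fermat.Agent.ES.Q58.RelQbarFinal88.relQbar
    (familyStmt_of_twist (fun W hΔ _ _ _ => h W hΔ)) W hΔ hW h5

end Fermat.Agent.S52.Asm.FinalH62
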